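/-
NEXT-GATE / S36-TATE (helper64), brick EIGEN-SUB.

The `χ`-eigen-SUBmodule `Y[χ] = {y | b • y = χB b • y}` of helper17's `TateDatum`
(`GJ/Tate/Datum.lean`): it is nonzero (dual form of helper17's Lemma N), saturated, Galois stable.
Invariants of a submodule of `Y` are honest invariants of `Y`; this is why S36 uses the
eigen-submodule and not the eigen-quotient of `S30Consumer`.
-/
import Mathlib
import Fermat.Agent.GJ.Tate.S30Consumer

set_option autoImplicit false

namespace Fermat.Agent.GK.S36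

open Fermat.Agent.GJ.Tate Fermat.Agent.GJ.Tate.Extract Fermat.Agent.GJ.Tate.S30Consumer

/-! ### Existence of eigenvectors in a faithful finite free module (characteristic free) -/

section Sat

variable {𝒪 : Type*} [CommRing 𝒪] [IsDomain 𝒪]
variable {B : Type*} [CommRing B] [Algebra 𝒪 B]
variable {Z : Type*} [AddCommGroup Z] [Module 𝒪 Z] [Module B Z] [IsScalarTower 𝒪 B Z]
variable [Module.Finite 𝒪 Z]

/-- Lemma N of helper17 in the form: the saturation of `(ker χB) Z` is a proper submodule of a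
faithful finitely generated module. -/
theorem exists_not_mem_sat (hfaith : ∀ b : B, (∀ z : Z, b • z = 0) → b = 0) (χB : B →ₐ[𝒪] 𝒪) :
    ∃ f : Z, f ∉ sat (((RingHom.ker (χB : B →+* 𝒪)) • (⊤ : Submodule B Z)).restrictScalars 𝒪) := by
  classical
  by_contra hcon
  push Not at hcon
  choose c hc0 hc using hcon
  obtain ⟨T, hT⟩ := (Module.Finite.fg_top : (⊤ : Submodule 𝒪 Z).FG)
  set s : 𝒪 := ∏ f ∈ T, c f with hs
  have hs0 : s ≠ 0 := Finset.prod_ne_zero_iff.mpr (fun f _ => hc0 f)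
  have hsY : ∀ f : Z, s • f ∈ (RingHom.ker (χB : B →+* 𝒪)) • (⊤ : Submodule B Z) := by
    intro f
    have hf : f ∈ Submodule.span 𝒪 (T : Set Z) := by
      rw [hT]; exact Submodule.mem_top
    refine Submodule.span_induction ?_ ?_ ?_ ?_ hf
    · intro z hz
      have hz' : z ∈ T := hz
      rw [hs, ← Finset.mul_prod_erase T c hz', mul_comm, mul_smul]
      exact Submodule.smul_mem
        (((RingHom.ker (χB : B →+* 𝒪)) • (⊤ : Submodule B Z)).restrictScalars 𝒪) _ (hc z)
    · rw [smul_zero]; exact Submodule.zero_mem _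
    · intro x z _ _ hx hz
      rw [smul_add]; exact Submodule.add_mem _ hx hz
    · intro a x _ hx
      rw [smul_comm]
      exact Submodule.smul_mem
        (((RingHom.ker (χB : B →+* 𝒪)) • (⊤ : Submodule B Z)).restrictScalars 𝒪) a hx
  exact hs0 (eq_zero_of_smul_mem_ker_smul hfaith χB s hsY)

/-- A vector outside the saturation of `U` is detected by a functional vanishing on `U`
(`𝒪` a PID). -/
theorem exists_dual_of_not_mem_sat [IsPrincipalIdealRing 𝒪] (U : Submodule 𝒪 Z) {f₀ : Z}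
    (hf₀ : f₀ ∉ sat U) : ∃ ψ : Z →ₗ[𝒪] 𝒪, ψ f₀ ≠ 0 ∧ ∀ f ∈ U, ψ f = 0 := by
  classical
  haveI : Module.IsTorsionFree 𝒪 (Z ⧸ sat U) := by
    apply Module.IsTorsionFree.of_smul_eq_zero
    intro s x hsx
    induction x using Submodule.Quotient.induction_on with
    | H y =>
      by_cases hs : s = 0
      · exact Or.inl hs
      · right
        rw [← Submodule.Quotient.mk_smul, Submodule.Quotient.mk_eq_zero] at hsx
        rw [Submodule.Quotient.mk_eq_zero]
        exact sat_saturated hs hsx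
  haveI : Module.Free 𝒪 (Z ⧸ sat U) := Module.free_of_finite_type_torsion_free'
  have hq0 : (Submodule.Quotient.mk f₀ : Z ⧸ sat U) ≠ 0 := by
    rw [Ne, Submodule.Quotient.mk_eq_zero]
    exact hf₀
  obtain ⟨ψ', hψ'⟩ := Module.Projective.exists_dual_ne_zero 𝒪 hq0
  refine ⟨ψ'.comp (sat U).mkQ, hψ', fun f hf => ?_⟩
  have : (sat U).mkQ f = 0 := by
    rw [Submodule.mkQ_apply, Submodule.Quotient.mk_eq_zero]
    exact le_sat U hf
  rw [LinearMap.comp_apply, this, map_zero]

end Sat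

section Abstract

/-- the `𝒪`-dual of `Y`, as a type synonym carrying the transposed `B`-action
(`B` is a phantom argument) -/
def TDual (𝒪 : Type*) [CommRing 𝒪] (B : Type*) (Y : Type*) [AddCommGroup Y] [Module 𝒪 Y] :
    Type _ := Module.Dual 𝒪 Y

variable {𝒪 : Type*} [CommRing 𝒪]
variable {B : Type*} [CommRing B] [Algebra 𝒪 B]
variable {Y : Type*} [AddCommGroup Y] [Module 𝒪 Y] [Module B Y] [IsScalarTower 𝒪 B Y]

instance : AddCommGroup (TDual 𝒪 B Y) := inferInstanceAs (AddCommGroup (Module.Dual 𝒪 Y))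
instance : Module 𝒪 (TDual 𝒪 B Y) := inferInstanceAs (Module 𝒪 (Module.Dual 𝒪 Y))

/-- the underlying functional -/
def TDual.toDual (f : TDual 𝒪 B Y) : Module.Dual 𝒪 Y := f

/-- a functional, as an element of the synonym -/
def TDual.ofDual (f : Module.Dual 𝒪 Y) : TDual 𝒪 B Y := f

omit [Algebra 𝒪 B] [Module B Y] [IsScalarTower 𝒪 B Y] in
theorem TDual.toDual_ofDual (f : Module.Dual 𝒪 Y) :
    (TDual.ofDual f : TDual 𝒪 B Y).toDual = f := rfl

/-- the transposed action of `b : B` on the `𝒪`-dual of `Y` -/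
def dualAct (b : B) : Module.End 𝒪 (TDual 𝒪 B Y) where
  toFun f := (TDual.toDual f).comp (Algebra.lsmul 𝒪 𝒪 Y b)
  map_add' f g := LinearMap.add_comp _ _ _
  map_smul' c f := LinearMap.smul_comp _ _ _

theorem dualAct_apply (b : B) (f : TDual 𝒪 B Y) (y : Y) :
    (dualAct b f).toDual y = f.toDual (b • y) := rfl

theorem TDual.ext {f g : TDual 𝒪 B Y} (h : ∀ y, f.toDual y = g.toDual y) : f = g :=
  LinearMap.ext h

/-- the transposed action as a ring hom (`B` is commutative) -/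
def dualActHom : B →+* Module.End 𝒪 (TDual 𝒪 B Y) where
  toFun := dualAct
  map_one' := by
    refine LinearMap.ext fun f => TDual.ext fun y => ?_
    rw [dualAct_apply, one_smul, Module.End.one_apply]
  map_mul' b c := by
    refine LinearMap.ext fun f => TDual.ext fun y => ?_
    rw [dualAct_apply, Module.End.mul_apply, dualAct_apply, dualAct_apply, mul_comm, mul_smul]
  map_zero' := by
    refine LinearMap.ext fun f => TDual.ext fun y => ?_
    rw [dualAct_apply, zero_smul, map_zero]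
    rfl
  map_add' b c := by
    refine LinearMap.ext fun f => TDual.ext fun y => ?_
    rw [dualAct_apply, add_smul, map_add]
    rfl

instance : Module B (TDual 𝒪 B Y) := Module.compHom _ (dualActHom (𝒪 := 𝒪) (B := B) (Y := Y))

theorem TDual.smul_apply (b : B) (f : TDual 𝒪 B Y) (y : Y) :
    (b • f).toDual y = f.toDual (b • y) := rfl

theorem TDual.smul_apply' (s : 𝒪) (f : TDual 𝒪 B Y) (y : Y) :
    (s • f).toDual y = s • f.toDual y := rfl

instance : IsScalarTower 𝒪 B (TDual 𝒪 B Y) := ⟨fun s b f => by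
  refine TDual.ext fun y => ?_
  rw [TDual.smul_apply, TDual.smul_apply', TDual.smul_apply, smul_assoc, map_smul]⟩

instance [Module.Free 𝒪 Y] [Module.Finite 𝒪 Y] : Module.Finite 𝒪 (TDual 𝒪 B Y) :=
  inferInstanceAs (Module.Finite 𝒪 (Module.Dual 𝒪 Y))

variable [IsDomain 𝒪] [IsPrincipalIdealRing 𝒪] [Module.Free 𝒪 Y] [Module.Finite 𝒪 Y]

/-- **Eigenvectors exist**: a commutative `𝒪`-algebra `B` acting faithfully on a finite free
`𝒪`-module `Y` (`𝒪` a PID) has, for every `𝒪`-algebra character `χB : B → 𝒪`, a nonzero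
`χB`-eigenvector in `Y`. -/
theorem exists_eigenvector (hfaith : ∀ b : B, (∀ y : Y, b • y = 0) → b = 0) (χB : B →ₐ[𝒪] 𝒪) :
    ∃ y : Y, y ≠ 0 ∧ ∀ b : B, b • y = χB b • y := by
  classical
  have hfaith' : ∀ b : B, (∀ f : TDual 𝒪 B Y, b • f = 0) → b = 0 := by
    intro b hb
    apply hfaith
    intro y
    rw [← Module.forall_dual_apply_eq_zero_iff 𝒪]
    intro f
    have h1 := TDual.smul_apply b (TDual.ofDual f : TDual 𝒪 B Y) y
    rw [hb, TDual.toDual_ofDual] at h1
    exact h1.symm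
  obtain ⟨f₀, hf₀⟩ := exists_not_mem_sat hfaith' χB
  obtain ⟨ψ, hψ0, hψU⟩ := exists_dual_of_not_mem_sat
    (((RingHom.ker (χB : B →+* 𝒪)) • (⊤ : Submodule B (TDual 𝒪 B Y))).restrictScalars 𝒪) hf₀
  obtain ⟨y, hyf⟩ : ∃ y : Y, ∀ f : TDual 𝒪 B Y, f.toDual y = ψ f :=
    ⟨(Module.evalEquiv 𝒪 Y).symm ψ, fun f => Module.apply_evalEquiv_symm_apply 𝒪 Y f.toDual ψ⟩
  have hy0 : y ≠ 0 := by
    intro h0
    apply hψ0
    have := hyf f₀
    rw [h0, map_zero] at this
    exact this.symm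
  have hIy : ∀ b ∈ RingHom.ker (χB : B →+* 𝒪), b • y = 0 := by
    intro b hb
    rw [← Module.forall_dual_apply_eq_zero_iff 𝒪]
    intro f
    have h1 := TDual.smul_apply b (TDual.ofDual f : TDual 𝒪 B Y) y
    have h3 : b • (TDual.ofDual f : TDual 𝒪 B Y) ∈
        (RingHom.ker (χB : B →+* 𝒪)) • (⊤ : Submodule B (TDual 𝒪 B Y)) :=
      Submodule.smul_mem_smul hb Submodule.mem_top
    have h2 : ψ (b • (TDual.ofDual f : TDual 𝒪 B Y)) = 0 :=
      hψU (b • (TDual.ofDual f : TDual 𝒪 B Y)) ((Submodule.restrictScalars_mem 𝒪 _ _).mpr h3)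
    rw [hyf, h2, TDual.toDual_ofDual] at h1
    exact h1.symm
  refine ⟨y, hy0, fun b => ?_⟩
  have hb : b - algebraMap 𝒪 B (χB b) ∈ RingHom.ker (χB : B →+* 𝒪) := by
    rw [RingHom.mem_ker]
    change χB (b - algebraMap 𝒪 B (χB b)) = 0
    rw [map_sub, AlgHom.commutes, Algebra.algebraMap_self_apply, sub_self]
  have h3 := hIy _ hb
  rw [sub_smul, algebraMap_smul, sub_eq_zero] at h3
  exact h3

end Abstract

/-! ### The eigen-submodule of a Tate datum -/

section Datum

variable {p N : ℕ} {S : Finset ℕ} {𝒪 : Type} [CommRing 𝒪] [IsDomain 𝒪]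
variable {α : ℕ → 𝒪} (D : TateDatum p N S 𝒪 α)

/-- the `χB`-eigen-submodule of `Y` -/
def eigenSubmod : Submodule 𝒪 D.Y where
  carrier := {y | ∀ b : D.B, b • y = D.χB b • y}
  add_mem' := by
    intro x y hx hy b
    rw [smul_add, smul_add, hx b, hy b]
  zero_mem' := by
    intro b
    rw [smul_zero, smul_zero]
  smul_mem' := by
    intro c y hy b
    rw [smul_comm, hy b, smul_comm]

omit [IsDomain 𝒪] in
theorem mem_eigenSubmod {y : D.Y} : y ∈ eigenSubmod D ↔ ∀ b : D.B, b • y = D.χB b • y := Iff.rfl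

omit [IsDomain 𝒪] in
theorem gal_mem_eigenSubmod (g : AlgebraicClosure ℚ ≃ₐ[ℚ] AlgebraicClosure ℚ) {y : D.Y}
    (hy : y ∈ eigenSubmod D) : D.gal g y ∈ eigenSubmod D := by
  intro b
  rw [← D.gal_comm, hy b, map_smul]

/-- the eigen-submodule is saturated -/
theorem eigenSubmod_saturated {s : 𝒪} (hs : s ≠ 0) {y : D.Y} (h : s • y ∈ eigenSubmod D) :
    y ∈ eigenSubmod D := by
  intro b
  have h1 := h b
  rw [smul_comm b s y, smul_comm (D.χB b) s y] at h1
  have h2 : s • (b • y - D.χB b • y) = 0 := by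
    rw [smul_sub, h1, sub_self]
  rcases smul_eq_zero.mp h2 with h3 | h3
  · exact absurd h3 hs
  · exact sub_eq_zero.mp h3

theorem nontrivial_eigenSubmod [IsPrincipalIdealRing 𝒪] : Nontrivial (eigenSubmod D) := by
  obtain ⟨y, hy0, hy⟩ := exists_eigenvector D.faithful D.χB
  exact ⟨⟨⟨y, hy⟩, 0, fun h => hy0 (congrArg Subtype.val h)⟩⟩

/-- the Galois action on the eigen-submodule -/
noncomputable def eigenSubRep :
    (AlgebraicClosure ℚ ≃ₐ[ℚ] AlgebraicClosure ℚ) →* Module.End 𝒪 (eigenSubmod D) :=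
  restrictRep D.gal (eigenSubmod D) (fun g _ hv => gal_mem_eigenSubmod D g hv)

omit [IsDomain 𝒪] in
theorem eigenSubRep_apply (g : AlgebraicClosure ℚ ≃ₐ[ℚ] AlgebraicClosure ℚ)
    (v : eigenSubmod D) : ((eigenSubRep D g v : eigenSubmod D) : D.Y) = D.gal g (v : D.Y) := rfl

end Datum

end Fermat.Agent.GK.S36
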