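/-
NEXT-GATE / S36-TATE (helper64), brick KOLCHIN.

A group `H` acting on a finitely generated torsion-free module `L` over a domain `𝒪` such that
every element satisfies `(h - 1)² = 0` has a nonzero common fixed vector.

Proof.  For `A = r g - 1`, `B = r h - 1` the relations `A² = B² = (A + B + AB)² = 0` give
`ABA = 0` and `AB = -BA`; hence for every `R` in the algebra `𝒜` generated by the `r h - 1` one has
`A R = R' A` and `A R A = 0`.  If there were no common fixed vector one could build, for every `k`,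
a chain `w, N₁ w, N₂ N₁ w, …` of `k + 1` linearly independent vectors, contradicting finite rank.
Mathlib only.
-/
import Mathlib

set_option autoImplicit false

namespace Fermat.Agent.GK.S36.Kolchin

open Module

section Algebra

variable {E : Type*} [Ring E]

/-- `A² = B² = (A + B + AB)² = 0` and `1 + B` right invertible imply `ABA = 0` and `AB + BA = 0`. -/
theorem anticomm_of_sq_zero (A B Binv : E) (hA : A * A = 0) (hB : B * B = 0)
    (hAB : (A + B + A * B) * (A + B + A * B) = 0) (hinv : (1 + B) * Binv = 1) :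
    A * B * A = 0 ∧ A * B + B * A = 0 := by
  have hexp : (A + B + A * B) * (A + B + A * B) =
      A * B + B * A + B * A * B + A * B * A + A * B * A * B
        + (A * A + A * A * B + B * B + A * (B * B)) := by noncomm_ring
  rw [hAB, hA, hB, zero_mul, mul_zero, add_zero, add_zero, add_zero, add_zero] at hexp
  -- `hexp : 0 = AB + BA + BAB + ABA + ABAB`
  have h1 : A * B * A * (1 + B) = 0 := by
    have e : A * B * A * (1 + B) =
        A * (A * B + B * A + B * A * B + A * B * A + A * B * A * B)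
          - (A * A) * B - (A * A) * B * A - (A * A) * B * A * B := by noncomm_ring
    rw [e, ← hexp, hA, mul_zero, zero_mul, zero_mul, zero_mul, sub_zero, sub_zero, sub_zero]
  have hABA : A * B * A = 0 := by
    have e : A * B * A = A * B * A * ((1 + B) * Binv) := by rw [hinv, mul_one]
    rw [e, ← mul_assoc, h1, zero_mul]
  have h2 : B * A * B = 0 := by
    have e : B * A * B =
        (A * B + B * A + B * A * B + A * B * A + A * B * A * B) * B
          - A * (B * B) - B * A * (B * B) - A * B * A * B - A * B * A * (B * B) := by noncomm_ring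
    rw [e, ← hexp, hB, hABA, mul_zero, mul_zero, zero_mul, zero_mul, sub_zero, sub_zero, sub_zero,
      sub_zero]
  refine ⟨hABA, ?_⟩
  rw [h2, hABA, zero_mul, add_zero, add_zero, add_zero] at hexp
  exact hexp.symm

end Algebra

section Main

variable {𝒪 : Type*} [CommRing 𝒪] [IsDomain 𝒪]
variable {L : Type*} [AddCommGroup L] [Module 𝒪 L]
variable {H : Type*} [Group H] (r : H →* Module.End 𝒪 L)

/-- the algebra generated by the `r h - 1` -/
def nilAlg : Subalgebra 𝒪 (Module.End 𝒪 L) :=
  Algebra.adjoin 𝒪 (Set.range fun h : H => r h - 1)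

theorem sub_one_mem_nilAlg (h : H) : r h - 1 ∈ nilAlg r :=
  Algebra.subset_adjoin ⟨h, rfl⟩

variable {r}

theorem anticomm (hsq : ∀ h : H, (r h - 1) * (r h - 1) = 0) (g h : H) :
    (r g - 1) * (r h - 1) * (r g - 1) = 0 ∧
      (r g - 1) * (r h - 1) + (r h - 1) * (r g - 1) = 0 := by
  refine anticomm_of_sq_zero (r g - 1) (r h - 1) (r h⁻¹) (hsq g) (hsq h) ?_ ?_
  · have e : r g - 1 + (r h - 1) + (r g - 1) * (r h - 1) = r (g * h) - 1 := by
      rw [map_mul]; noncomm_ring
    rw [e]
    exact hsq (g * h)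
  · have e : (1 : Module.End 𝒪 L) + (r h - 1) = r h := by abel
    rw [e, ← map_mul, mul_inv_cancel, map_one]

/-- every element of `nilAlg` commutes with `r g - 1` up to replacing it by another element -/
theorem exists_comm (hsq : ∀ h : H, (r h - 1) * (r h - 1) = 0) (g : H)
    {R : Module.End 𝒪 L} (hR : R ∈ nilAlg r) :
    ∃ R' : Module.End 𝒪 L, (r g - 1) * R = R' * (r g - 1) := by
  induction hR using Algebra.adjoin_induction with
  | mem x hx =>
    obtain ⟨h, rfl⟩ := hx
    refine ⟨-(r h - 1), ?_⟩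
    have := (anticomm hsq g h).2
    rw [neg_mul, eq_neg_iff_add_eq_zero]
    exact this
  | algebraMap c =>
    exact ⟨algebraMap 𝒪 _ c, (Algebra.commutes c _).symm⟩
  | add x y _ _ hx hy =>
    obtain ⟨x', hx'⟩ := hx
    obtain ⟨y', hy'⟩ := hy
    exact ⟨x' + y', by rw [mul_add, add_mul, hx', hy']⟩
  | mul x y _ _ hx hy =>
    obtain ⟨x', hx'⟩ := hx
    obtain ⟨y', hy'⟩ := hy
    exact ⟨x' * y', by rw [← mul_assoc, hx', mul_assoc, hy', mul_assoc]⟩

theorem sandwich_eq_zero (hsq : ∀ h : H, (r h - 1) * (r h - 1) = 0) (g : H)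
    {R : Module.End 𝒪 L} (hR : R ∈ nilAlg r) : (r g - 1) * R * (r g - 1) = 0 := by
  obtain ⟨R', hR'⟩ := exists_comm hsq g hR
  rw [hR', mul_assoc, hsq g, mul_zero]

variable [Module.IsTorsionFree 𝒪 L]

/-- chains of linearly independent vectors, if there is no common fixed vector -/
theorem exists_chain (hsq : ∀ h : H, (r h - 1) * (r h - 1) = 0)
    (hno : ∀ w : L, w ≠ 0 → ∃ h : H, (r h - 1) w ≠ 0) (k : ℕ) :
    ∀ w : L, w ≠ 0 → ∃ (f : Fin (k + 1) → L) (P : Module.End 𝒪 L), P ∈ nilAlg r ∧ P w ≠ 0 ∧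
      LinearIndependent 𝒪 f ∧ ∀ i, ∃ R ∈ nilAlg r, f i = R w := by
  induction k with
  | zero =>
    intro w hw
    refine ⟨fun _ => w, 1, one_mem _, by simpa using hw, ?_, fun _ => ⟨1, one_mem _, rfl⟩⟩
    haveI : Unique (Fin (0 + 1)) := inferInstanceAs (Unique (Fin 1))
    rw [linearIndependent_unique_iff]
    exact hw
  | succ k ih =>
    intro w hw
    obtain ⟨h, hh⟩ := hno w hw
    obtain ⟨f', P', hP'mem, hP', hli', hmem'⟩ := ih ((r h - 1) w) hh
    refine ⟨Fin.cons w f', P' * (r h - 1), mul_mem hP'mem (sub_one_mem_nilAlg r h), hP', ?_, ?_⟩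
    · refine LinearIndependent.finCons' w f' hli' ?_
      intro c y hy hcy
      -- `y = R ((r h - 1) w)` with `R ∈ nilAlg`
      have hyR : ∃ R ∈ nilAlg r, y = R ((r h - 1) w) := by
        refine Submodule.span_induction ?_ ?_ ?_ ?_ hy
        · rintro _ ⟨i, rfl⟩
          exact hmem' i
        · exact ⟨0, zero_mem _, by simp⟩
        · rintro x z _ _ ⟨Rx, hRx, rfl⟩ ⟨Rz, hRz, rfl⟩
          exact ⟨Rx + Rz, add_mem hRx hRz, by simp⟩
        · rintro a x _ ⟨Rx, hRx, rfl⟩
          exact ⟨a • Rx, Subalgebra.smul_mem _ hRx a, by simp⟩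
      obtain ⟨R, hR, rfl⟩ := hyR
      have hz : (P' * (r h - 1)) (R ((r h - 1) w)) = 0 := by
        have := sandwich_eq_zero hsq h hR
        have e : (P' * (r h - 1)) (R ((r h - 1) w)) = (P' * ((r h - 1) * R * (r h - 1))) w := by
          simp [Module.End.mul_apply]
        rw [e, this, mul_zero, LinearMap.zero_apply]
      have h0 := congrArg (fun v : L => (P' * (r h - 1)) v) hcy
      rw [map_add, map_smul, hz, add_zero, map_zero] at h0
      rcases smul_eq_zero.mp h0 with h1 | h1
      · exact h1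
      · exact absurd h1 hP'
    · intro i
      refine Fin.cases ?_ (fun j => ?_) i
      · exact ⟨1, one_mem _, by simp⟩
      · obtain ⟨R, hR, hfR⟩ := hmem' j
        refine ⟨R * (r h - 1), mul_mem hR (sub_one_mem_nilAlg r h), ?_⟩
        rw [Fin.cons_succ, hfR]
        rfl

/-- **Kolchin for square-zero unipotent groups.** -/
theorem exists_fixed [Module.Finite 𝒪 L] [Nontrivial L]
    (hsq : ∀ h : H, (r h - 1) * (r h - 1) = 0) :
    ∃ w : L, w ≠ 0 ∧ ∀ h : H, r h w = w := by
  by_contra hcon
  push Not at hcon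
  have hno : ∀ w : L, w ≠ 0 → ∃ h : H, (r h - 1) w ≠ 0 := by
    intro w hw
    obtain ⟨h, hh⟩ := hcon w hw
    refine ⟨h, ?_⟩
    rw [LinearMap.sub_apply, Module.End.one_apply]
    exact sub_ne_zero.mpr hh
  obtain ⟨w, hw⟩ := exists_ne (0 : L)
  obtain ⟨f, -, -, -, hli, -⟩ := exists_chain hsq hno (finrank 𝒪 L) w hw
  have := hli.fintype_card_le_finrank
  rw [Fintype.card_fin] at this
  omega

end Main

end Fermat.Agent.GK.S36.Kolchin
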