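/-
NEXT-GATE / S36-TATE (helper64), brick NOT-UNIP.

From helper17's `TateDatum` and a cyclotomic datum: a Galois representation `ρ` on a rank two
lattice cut out of the `χ`-eigen-SUBmodule `Y[χ]` of the Tate module, with
`charpoly ρ(Frob_ℓ) = X² - α ℓ X + ℓ`, which is **not unipotent on inertia at `q`** for every prime
`q ≠ p` at which the datum satisfies the invariant gate

  `InvGate D q : ∃ P | q, ∃ b₀ : B, χB b₀ ≠ 0 ∧ ∀ y : Y, (∀ σ ∈ I(P), gal σ y = y) → b₀ • y = 0`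

("some Hecke operator not killed by `χ` kills the inertia invariants of the Tate module").

Proof: if `ρ` were unipotent on `I = I(P)`, then `χB(b_σ) = 2` for `σ ∈ I`, hence `(σ - 1)² = 0` on
`Y[χ]` for all `σ ∈ I`; Kolchin (`Kolchin.exists_fixed`) gives `0 ≠ e ∈ Y[χ]` fixed by `I`;
then `b₀ • e = χB b₀ • e ≠ 0` contradicts the gate.
-/
import Mathlib
import Fermat.Agent.GK.S36.EigenSub
import Fermat.Agent.GK.S36.Kolchin
import Fermat.Prelude.Def_GaloisRep_LocalConditions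

set_option autoImplicit false

namespace Fermat.Agent.GK.S36

open Polynomial
open Fermat.Agent.GJ.Tate Fermat.Agent.GJ.Tate.Extract Fermat.Agent.GJ.Tate.Density
  Fermat.Agent.GJ.Tate.S30Consumer

section Gate

variable {p N : ℕ} {S : Finset ℕ} {𝒪 : Type} [CommRing 𝒪]
variable {α : ℕ → 𝒪} (D : TateDatum p N S 𝒪 α)

/-- **The invariant gate at the datum level**: a Hecke operator `b₀` with `χB b₀ ≠ 0` kills the
invariants of an inertia group over `q` in the Tate module. -/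
def InvGate (q : ℕ) : Prop :=
  ∃ P : ValuationSubring (AlgebraicClosure ℚ), P.LiesOverPrime q ∧ ∃ b₀ : D.B, D.χB b₀ ≠ 0 ∧
    ∀ y : D.Y, (∀ σ ∈ P.inertiaSubgroupIn ℚ, D.gal σ y = y) → b₀ • y = 0

end Gate

section Final

variable {p N : ℕ} {S : Finset ℕ}
variable {𝒪 : Type} [CommRing 𝒪] [IsDomain 𝒪] [IsDiscreteValuationRing 𝒪]
variable {α : ℕ → 𝒪} (D : TateDatum p N S 𝒪 α) (cy : CycDatum p 𝒪)

include D cy in
/-- **S36 from a Tate datum**: a rank two representation with the Frobenius characteristic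
polynomials of `χ`, unramified outside `N p`, and NOT unipotent on inertia at every prime `q ≠ p`
satisfying the invariant gate. -/
theorem exists_galoisRepAdic_not_unipotent [CharZero 𝒪]
    (hp : (p : 𝒪) ∈ IsLocalRing.maximalIdeal 𝒪) (hpS : p ∈ S)
    (hNS : ∀ q : ℕ, q.Prime → q ∣ N → q ∈ S) :
    ∃ ρ : GaloisRepAdic 𝒪,
      (∀ ℓ : ℕ, ℓ.Prime → ¬ ℓ ∣ N → ℓ ∉ S →
        ∀ A : ValuationSubring (AlgebraicClosure ℚ), A.LiesOverPrime ℓ →
          ∀ σ : AlgebraicClosure ℚ ≃ₐ[ℚ] AlgebraicClosure ℚ, A.IsFrobeniusAt σ ℓ →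
            LinearMap.charpoly (ρ.ρ σ) = X ^ 2 - C (α ℓ) * X + C ((ℓ : 𝒪))) ∧
      (∀ q : ℕ, q.Prime → q ≠ p → InvGate D q → ¬ ρ.IsUnipotentOnInertiaAt q) := by
  classical
  choose b hb using exists_hecke_eq D cy hp hpS hNS
  haveI hnt : Nontrivial (eigenSubmod D) := nontrivial_eigenSubmod D
  have h2 : (2 : 𝒪) ≠ 0 := two_ne_zero
  have rel : ∀ g, eigenSubRep D g + ((cy.d g : 𝒪ˣ) : 𝒪) • eigenSubRep D g⁻¹
      = D.χB (b g) • (1 : Module.End 𝒪 (eigenSubmod D)) := by
    intro g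
    refine LinearMap.ext fun v => Subtype.ext ?_
    rw [LinearMap.add_apply, LinearMap.smul_apply, LinearMap.smul_apply, Module.End.one_apply,
      Submodule.coe_add, Submodule.coe_smul, Submodule.coe_smul, eigenSubRep_apply,
      eigenSubRep_apply, hb g (v : D.Y)]
    exact v.2 (b g)
  obtain ⟨R, hchar, htr⟩ := exists_rankTwoRep (r := eigenSubRep D) (d := cy.d)
    (a := fun g => D.χB (b g)) (c := complexConjugation) h2 rel complexConjugation_mul_self
    cy.d_conj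
  have hcont : GaloisActionIsAdicContinuous 𝒪 R.ρ := by
    intro n
    obtain ⟨K₁, hK₁, h₁⟩ := D.gal_cont n
    obtain ⟨K₂, hK₂, h₂⟩ := cy.d_cont n
    refine ⟨K₁ ⊔ K₂, IntermediateField.finiteDimensional_sup K₁ K₂, fun σ hσ v => ?_⟩
    have hσ₁ : ∀ x ∈ K₁, σ x = x := fun x hx => hσ x ((le_sup_left : K₁ ≤ K₁ ⊔ K₂) hx)
    have hσ₂ : ∀ x ∈ K₂, σ x = x := fun x hx => hσ x ((le_sup_right : K₂ ≤ K₁ ⊔ K₂) hx)
    obtain ⟨v', hv'⟩ := htr σ ((p : 𝒪) ^ n) (by
      intro x
      obtain ⟨y', hy'⟩ := h₁ σ hσ₁ (x : D.Y)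
      by_cases hpn : ((p : 𝒪) ^ n) = 0
      · refine ⟨0, Subtype.ext ?_⟩
        rw [Submodule.coe_sub, eigenSubRep_apply, hy', hpn, zero_smul, zero_smul,
          Submodule.coe_zero]
      · have hy'mem : y' ∈ eigenSubmod D := by
          apply eigenSubmod_saturated D hpn
          rw [← hy']
          exact (eigenSubmod D).sub_mem (gal_mem_eigenSubmod D σ x.2) x.2
        refine ⟨⟨y', hy'mem⟩, Subtype.ext ?_⟩
        rw [Submodule.coe_sub, eigenSubRep_apply, hy', Submodule.coe_smul]) (by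
      have := h₂ σ hσ₂
      rw [Ideal.mem_span_singleton'] at this
      obtain ⟨t, ht⟩ := this
      exact ⟨t, by rw [← ht, mul_comm]⟩) v
    rw [hv']
    exact Submodule.smul_mem_smul (Ideal.pow_mem_pow hp n) Submodule.mem_top
  refine ⟨{ V := R.V, finrank_eq := R.finrank_eq, ρ := R.ρ, isAdicContinuous := hcont }, ?_, ?_⟩
  · intro ℓ hℓ hℓN hℓS A hA σ hσ
    change LinearMap.charpoly (R.ρ σ) = _
    have hℓp : ℓ ≠ p := fun h => hℓS (h ▸ hpS)
    have hdσ : ((cy.d σ : 𝒪ˣ) : 𝒪) = (ℓ : 𝒪) := cy.d_frob ℓ hℓ hℓp A hA σ hσ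
    have hbσ : b σ = D.t ℓ := by
      have : b σ - D.t ℓ = 0 := by
        apply D.faithful
        intro y
        rw [sub_smul, ← hb σ y, hdσ, frob_add_inv D ℓ hℓ hℓN hℓS A hA σ hσ y, sub_self]
      exact sub_eq_zero.mp this
    rw [hchar σ, hdσ]
    change X ^ 2 - C (D.χB (b σ)) * X + C (ℓ : 𝒪) = _
    rw [hbσ, D.χB_t ℓ hℓ hℓN hℓS]
  · rintro q hq hqp ⟨P, hP, b₀, hb₀, hinv⟩ hunip
    -- `(σ - 1)² = 0` on the eigen-submodule for `σ` in inertia
    have hsq : ∀ σ ∈ P.inertiaSubgroupIn ℚ,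
        (eigenSubRep D σ - 1) * (eigenSubRep D σ - 1) = 0 := by
      intro σ hσ
      have hd : ((cy.d σ : 𝒪ˣ) : 𝒪) = 1 := by
        rw [cy.d_inertia q hq hqp P hP σ hσ, Units.val_one]
      have h1 : LinearMap.charpoly (R.ρ σ) = (X - 1) ^ 2 := hunip P hP σ hσ
      rw [hchar σ, hd] at h1
      have ha : D.χB (b σ) = 2 := by
        have h3 := congrArg (Polynomial.eval (1 : 𝒪)) h1
        rw [eval_add, eval_sub, eval_pow, eval_X, eval_mul, eval_C, eval_X, eval_C, eval_pow,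
          eval_sub, eval_X, eval_one, sub_self] at h3
        linear_combination (-1 : 𝒪) * h3
      have hr := rel σ
      rw [hd, one_smul, ha] at hr
      -- `r σ + r σ⁻¹ = 2`
      have hmul : eigenSubRep D σ * eigenSubRep D σ⁻¹ = 1 := by
        rw [← map_mul, mul_inv_cancel, map_one]
      have e : (eigenSubRep D σ - 1) * (eigenSubRep D σ - 1)
          = eigenSubRep D σ * (eigenSubRep D σ + eigenSubRep D σ⁻¹)
            - eigenSubRep D σ * eigenSubRep D σ⁻¹ - (eigenSubRep D σ + eigenSubRep D σ) + 1 := by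
        have e0 : (eigenSubRep D σ - 1) * (eigenSubRep D σ - 1)
            = eigenSubRep D σ * eigenSubRep D σ - eigenSubRep D σ - (eigenSubRep D σ - 1) := by
          rw [sub_mul, mul_sub, mul_one, one_mul]
        rw [e0, mul_add]
        abel
      rw [e, hr, hmul, mul_smul_comm, mul_one, two_smul]
      abel
    -- Kolchin on the inertia subgroup
    let I := P.inertiaSubgroupIn ℚ
    obtain ⟨w, hw0, hw⟩ := Kolchin.exists_fixed (r := (eigenSubRep D).comp I.subtype)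
      (fun h => hsq h.1 h.2)
    have hy0 : (w : D.Y) ≠ 0 := fun h => hw0 (Subtype.ext h)
    have hfix : ∀ σ ∈ P.inertiaSubgroupIn ℚ, D.gal σ (w : D.Y) = (w : D.Y) := by
      intro σ hσ
      have := congrArg Subtype.val (hw ⟨σ, hσ⟩)
      exact this
    have h0 := hinv (w : D.Y) hfix
    rw [w.2 b₀] at h0
    rcases smul_eq_zero.mp h0 with h | h
    · exact hb₀ h
    · exact hy0 h

end Final

end Fermat.Agent.GK.S36
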