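/-
NEXT-GATE / S36-TATE (helper64), brick S36-TOWER (the twin of helper17's `GK/Tate/S35Tower.lean`).

`s36_of_tower` : from a tower `𝒯` (helper23's `Lim.Tower`) with `TowerHyp` (as for S30) and, for
every prime `q ≠ p` with `q² ∥ N`, a Hecke operator `t` with `χ t ≠ 0` satisfying helper85's
finite-level gate `InvDatum.LevelGate` at ONE place `P | q` (`t` kills, in level `n`, the image of
the `I(P)`-invariants of some level `k = k(n)`), ONE representation `ρ` with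
  (1) `charpoly ρ(Frob_ℓ) = X² − χ(T_ℓ) X + ℓ` at the good primes (= the frozen S30), and
  (2) `ρ` is NOT unipotent on inertia at such `q` (= clause 2 of the frozen S36).
`s36_of_kumModels` : the same from Kummer models (the input shape of `OfTower.s30_of_kumModels`).
-/
import Mathlib
import Fermat.Agent.GJ.Tate.TowerOfKumModels
import Fermat.Agent.GK.S36.NotUnip
import Fermat.Agent.GL.Tate.InvDatum
set_option autoImplicit false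
noncomputable section
namespace Fermat.Agent.GK.S36.S36Tower
open TensorProduct CuspForm Polynomial
open Fermat.Agent.GJ Fermat.Agent.GJ.Tate Fermat.Agent.GJ.Tate.Lim Fermat.Agent.GJ.Tate.OfTower
open Fermat.Agent.GJ.Tate.S30Asm Fermat.Agent.GJ.Tate.S30Consumer
open Fermat.Agent.GL.Tate.InvDatum

/-- the levelwise S36 hypothesis on a tower: for every prime `q ≠ p` with `q² ∥ N`, a Hecke
operator `t` with `χ t ≠ 0` and ONE place `P | q` such that `t` kills, at level `n`, the image of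
the `I(P)`-invariants of some level `k = k(n)` -/
def TowerINV36 (p N : ℕ) [NeZero N] (S : Finset ℕ) {𝒪 : Type} [CommRing 𝒪]
    (χ : heckeAlgebra N 2 (↑S : Set ℕ) →+* 𝒪)
    {Λ : Type} [AddCommGroup Λ] (act : heckeAlgebra N 2 (↑S : Set ℕ) →+* Module.End ℤ Λ)
    (𝒯 : Tower.{0, 0, 0} p Λ (AlgebraicClosure ℚ ≃ₐ[ℚ] AlgebraicClosure ℚ)) : Prop :=
  ∀ q : ℕ, q.Prime → q ≠ p → N.factorization q = 2 →
    ∃ t : heckeAlgebra N 2 (↑S : Set ℕ), χ t ≠ 0 ∧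
      ∃ P : ValuationSubring (AlgebraicClosure ℚ), P.LiesOverPrime q ∧
        ∀ n : ℕ, ∃ k : ℕ, ∀ x : Λ,
          (∀ σ ∈ P.inertiaSubgroupIn ℚ, 𝒯.ρ k σ (𝒯.π k x) = 𝒯.π k x) → 𝒯.π n (act t x) = 0

/-- **S30 + clause 2 of S36 from a tower.** -/
theorem s36_of_tower (p : ℕ) [Fact p.Prime] (N : ℕ) [NeZero N] (S : Finset ℕ)
    (hpS : p ∈ S) (hNS : ∀ q : ℕ, q.Prime → q ∣ N → q ∈ S)
    (𝒪' : Type) [CommRing 𝒪'] [IsDomain 𝒪'] [IsDiscreteValuationRing 𝒪']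
    [IsAdicComplete (IsLocalRing.maximalIdeal 𝒪') 𝒪'] [Finite (IsLocalRing.ResidueField 𝒪')]
    [CharZero 𝒪'] (hp𝒪' : (p : 𝒪') ∈ IsLocalRing.maximalIdeal 𝒪')
    (χ : CuspForm.heckeAlgebra N 2 (↑S : Set ℕ) →+* 𝒪')
    (Λ : Type) [AddCommGroup Λ] [Module.Free ℤ Λ] [Module.Finite ℤ Λ]
    (act : heckeAlgebra N 2 (↑S : Set ℕ) →+* Module.End ℤ Λ) (hact : Function.Injective act)
    (𝒯 : Tower.{0, 0, 0} p Λ (AlgebraicClosure ℚ ≃ₐ[ℚ] AlgebraicClosure ℚ))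
    (h : TowerHyp p N S act 𝒯) (hINV : TowerINV36 p N S χ act 𝒯) :
    ∃ ρ : GaloisRepAdic 𝒪',
      (∀ (ℓ : ℕ) (hℓ : ℓ.Prime) (hℓN : ¬ ℓ ∣ N) (hℓS : ℓ ∉ (↑S : Set ℕ)),
        ∀ A : ValuationSubring (AlgebraicClosure ℚ), A.LiesOverPrime ℓ →
          ∀ σ : AlgebraicClosure ℚ ≃ₐ[ℚ] AlgebraicClosure ℚ, A.IsFrobeniusAt σ ℓ →
            LinearMap.charpoly (ρ.ρ σ) =
              X ^ 2 - C (χ (CuspForm.heckeAlgebra.T hℓ hℓN hℓS)) * X + C ((ℓ : 𝒪'))) ∧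
      (∀ q : ℕ, q.Prime → q ≠ p → N.factorization q = 2 → ¬ ρ.IsUnipotentOnInertiaAt q) := by
  have hp0' : p ≠ 0 := (Fact.out : p.Prime).ne_zero
  have hp0 : (p : 𝒪') ≠ 0 := Nat.cast_ne_zero.mpr hp0'
  have : IsAdicComplete (Ideal.span {(p : 𝒪')}) 𝒪' := isAdicComplete_span_of_dvr hp𝒪' hp0
  set D : TateDatum p N S 𝒪' (alphaOf χ) :=
    ofTower act hact 𝒯 h χ (alphaOf χ) (fun ℓ hℓ hℓN hℓS => alphaOf_eq χ hℓ hℓN hℓS) with hD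
  set cy : CycDatum p 𝒪' := cycDatum p 𝒪' hp𝒪' with hcy
  obtain ⟨ρ, hρ₁, hρ₂⟩ := exists_galoisRepAdic_not_unipotent D cy hp𝒪' hpS hNS
  refine ⟨ρ, ?_, ?_⟩
  · intro ℓ hℓ hℓN hℓS A hA σ hσ
    have hℓS' : ℓ ∉ S := fun hh => hℓS (Finset.mem_coe.mpr hh)
    rw [hρ₁ ℓ hℓ hℓN hℓS' A hA σ hσ, alphaOf_eq χ hℓ hℓN hℓS]
  · intro q hq hqp hq2
    obtain ⟨t, ht, P, hP, hgate⟩ := hINV q hq hqp hq2
    refine hρ₂ q hq hqp ⟨P, hP, heckeElt act hact 𝒯 h χ (alphaOf χ)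
      (fun ℓ hℓ hℓN hℓS => alphaOf_eq χ hℓ hℓN hℓS) t, ?_, ?_⟩
    · have hχ := chiB_heckeElt act hact 𝒯 h χ (alphaOf χ)
        (fun ℓ hℓ hℓN hℓS => alphaOf_eq χ hℓ hℓN hℓS) t
      intro h0
      exact ht (hχ.symm.trans h0)
    · intro y hy
      exact smul_eq_zero_of_invariant act hact 𝒯 h χ (alphaOf χ)
        (fun ℓ hℓ hℓN hℓS => alphaOf_eq χ hℓ hℓN hℓS) hp0'
        (↑(P.inertiaSubgroupIn ℚ) : Set (AlgebraicClosure ℚ ≃ₐ[ℚ] AlgebraicClosure ℚ)) t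
        hgate y hy

/-- **S30 + clause 2 of S36 from Kummer models at the moduli `p ^ n`** (input shape of
`OfTower.s30_of_kumModels` plus the levelwise S36 hypothesis `hINV`). -/
theorem s36_of_kumModels (p : ℕ) [Fact p.Prime] (N : ℕ) [NeZero N] (S : Finset ℕ)
    (hpS : p ∈ S) (hNS : ∀ q : ℕ, q.Prime → q ∣ N → q ∈ S)
    (𝒪' : Type) [CommRing 𝒪'] [IsDomain 𝒪'] [IsDiscreteValuationRing 𝒪']
    [IsAdicComplete (IsLocalRing.maximalIdeal 𝒪') 𝒪'] [Finite (IsLocalRing.ResidueField 𝒪')]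
    [CharZero 𝒪'] (hp𝒪' : (p : 𝒪') ∈ IsLocalRing.maximalIdeal 𝒪')
    (χ : CuspForm.heckeAlgebra N 2 (↑S : Set ℕ) →+* 𝒪')
    (Λ : Type) [AddCommGroup Λ] [Module.Free ℤ Λ] [Module.Finite ℤ Λ]
    (act : heckeAlgebra N 2 (↑S : Set ℕ) →+* Module.End ℤ Λ) (hact : Function.Injective act)
    (M : ∀ n : ℕ, J4Asm.KumModel N (p ^ n))
    (Θ : ∀ n, Λ →+ (M n).K) (hsurj : ∀ n, Function.Surjective (Θ n))
    (hker : ∀ n x, Θ n x = 0 → ∃ y, x = (p ^ n) • y)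
    (hcompat : ∀ n (g : AlgebraicClosure ℚ ≃ₐ[ℚ] AlgebraicClosure ℚ) (x y : Λ),
      (M (n + 1)).gal g (Θ (n + 1) x) = Θ (n + 1) y → (M n).gal g (Θ n x) = Θ n y)
    (hΘT : ∀ n (ℓ : ℕ), ℓ.Prime → ℓ ∉ S → ∀ x,
      Θ n (act (heckeTl N S ℓ) x) = (M n).T ℓ (Θ n x))
    (hINV : ∀ q : ℕ, q.Prime → q ≠ p → N.factorization q = 2 →
      ∃ t : heckeAlgebra N 2 (↑S : Set ℕ), χ t ≠ 0 ∧
        ∃ P : ValuationSubring (AlgebraicClosure ℚ), P.LiesOverPrime q ∧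
          ∀ n : ℕ, ∃ k : ℕ, ∀ x : Λ,
            (∀ σ ∈ P.inertiaSubgroupIn ℚ, (M k).gal σ (Θ k x) = Θ k x) →
              Θ n (act t x) = 0) :
    ∃ ρ : GaloisRepAdic 𝒪',
      (∀ (ℓ : ℕ) (hℓ : ℓ.Prime) (hℓN : ¬ ℓ ∣ N) (hℓS : ℓ ∉ (↑S : Set ℕ)),
        ∀ A : ValuationSubring (AlgebraicClosure ℚ), A.LiesOverPrime ℓ →
          ∀ σ : AlgebraicClosure ℚ ≃ₐ[ℚ] AlgebraicClosure ℚ, A.IsFrobeniusAt σ ℓ →
            LinearMap.charpoly (ρ.ρ σ) =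
              X ^ 2 - C (χ (CuspForm.heckeAlgebra.T hℓ hℓN hℓS)) * X + C ((ℓ : 𝒪'))) ∧
      (∀ q : ℕ, q.Prime → q ≠ p → N.factorization q = 2 → ¬ ρ.IsUnipotentOnInertiaAt q) :=
  s36_of_tower p N S hpS hNS 𝒪' hp𝒪' χ Λ act hact (towerOfKumModels M Θ hsurj hker hcompat)
    (towerHyp_of_kumModels Fact.out hpS hNS act M Θ hsurj hker hcompat hΘT)
    (fun q hq hqp hq2 => by
      obtain ⟨t, ht, P, hP, hgate⟩ := hINV q hq hqp hq2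
      exact ⟨t, ht, P, hP, fun n => by
        obtain ⟨k, hk⟩ := hgate n
        exact ⟨k, fun x hx => hk x hx⟩⟩)

end Fermat.Agent.GK.S36.S36Tower
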