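/-
NEXT-GATE / S36-TATE (helper64), brick S36-FINAL: **the frozen statement S36 from ONE gate**
(the twin of helper17's `GK/Tate/S35Final.lean`).

* `s36_of_gate : S36Gate → (frozen S36)`, where `S36Gate` quantifies over ALL the binders of the
  frozen S36 (including `hlam2` and `hres`, verbatim) and asks, for every prime `q ≠ lam` with
  `M.factorization q = 2`, for a Hecke operator `t ∈ heckeAlgebra M 2 S` with `chig t ≠ 0` and
  `S36Top.INV36Gate M S lam q t` (ONE place `P | q`; for every `n` some `k` such that `t` kills, in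
  `Kum_{lamⁿ}(F_M)`, the image of the `I(P)`-invariants of `Kum_{lam^k}(F_M)`).
* `s36Gate_of_NE : S36GateNE → S36Gate` : the same contract with `O'`, `iota`, `hres` replaced by
  their only consequence (helper2's `NonEis.exists_prime_ne_succ`): a prime `ℓ ∉ S`, `ℓ ≠ lam`
  with `chig (T_ℓ) ≠ ℓ + 1` in `ℂ` ("the eigensystem is not Eisenstein").

Everything else (J1 Kummer theorem, J2 tower, Tate-module extraction, the `χ`-eigen-sublattice,
Kolchin, injectivity of `iota`) is proved.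
-/
import Mathlib
import Fermat.Agent.GK.S36.S36Top
import Fermat.Agent.GL.Tate.NonEis

set_option autoImplicit false

open CuspForm Polynomial

namespace Fermat.Agent.GK.S36.S36Final

open Fermat.Agent.GK.S36.S36Top

/-- **The S36 gate** (the contract for the geometry at `q² ∥ M`), with ALL binders of the frozen
statement S36 available. -/
def S36Gate : Prop :=
  ∀ {M : ℕ} [NeZero M] {g : CuspForm (CongruenceSubgroup.Gamma0 M) 2} (_ : g.IsNewform)
    (lam : ℕ) [Fact lam.Prime] (S : Finset ℕ)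
    (O' : Type) [CommRing O'] [IsDomain O'] [IsDiscreteValuationRing O']
    [IsAdicComplete (IsLocalRing.maximalIdeal O') O'] [Finite (IsLocalRing.ResidueField O')]
    [CharZero O'] (_ : (lam : O') ∈ IsLocalRing.maximalIdeal O')
    (_ : lam ≠ 2)
    (chig : CuspForm.heckeAlgebra M 2 (↑S : Set ℕ) →+* ℂ)
    (_ : ∀ (ℓ : ℕ) (hℓ : ℓ.Prime) (hℓM : ¬ ℓ ∣ M) (hℓS : ℓ ∉ (↑S : Set ℕ)),
      chig (CuspForm.heckeAlgebra.T hℓ hℓM hℓS) = ModularFormClass.qCoeff g ℓ)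
    (iota : chig.range →+* O')
    (_ : lam ∈ S) (_ : ∀ q : ℕ, q.Prime → q ∣ M → q ∈ S)
    (_ : ∀ (O'' : Type) [CommRing O''] [IsDomain O''] [IsDiscreteValuationRing O'']
      [IsAdicComplete (IsLocalRing.maximalIdeal O'') O''] [Finite (IsLocalRing.ResidueField O'')]
      [CharZero O''] [Algebra O' O''] [Module.Finite O' O''] [IsLocalHom (algebraMap O' O'')],
      Function.Injective (algebraMap O' O'') → ∀ (ρ : GaloisRepAdic O''),
      (∀ (ℓ : ℕ) (hℓ : ℓ.Prime) (_ : ℓ ≠ lam) (hℓM : ¬ ℓ ∣ M) (hℓS : ℓ ∉ (↑S : Set ℕ)),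
        ∀ A : ValuationSubring (AlgebraicClosure ℚ), A.LiesOverPrime ℓ →
          ∀ σ : AlgebraicClosure ℚ ≃ₐ[ℚ] AlgebraicClosure ℚ, A.IsFrobeniusAt σ ℓ →
            LinearMap.charpoly (ρ.ρ σ) =
              X ^ 2 - C (algebraMap O' O'' ((iota.comp chig.rangeRestrict)
                (CuspForm.heckeAlgebra.T hℓ hℓM hℓS))) * X + C ((ℓ : O'')))
      → ρ.residual.IsAbsolutelyIrreducible ∧ ρ.residual.IsOdd)
    (q : ℕ), q.Prime → q ≠ lam → M.factorization q = 2 →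
      ∃ t : CuspForm.heckeAlgebra M 2 (↑S : Set ℕ), chig t ≠ 0 ∧ INV36Gate M S lam q t

/-- **The S36 gate, clean form**: `O'`, `iota` and `hres` are replaced by their only consequence,
a prime `ℓ ∉ S`, `ℓ ≠ lam` with `chig (T_ℓ) ≠ ℓ + 1` ("non-Eisenstein"). -/
def S36GateNE : Prop :=
  ∀ {M : ℕ} [NeZero M] {g : CuspForm (CongruenceSubgroup.Gamma0 M) 2} (_ : g.IsNewform)
    (lam : ℕ) [Fact lam.Prime] (S : Finset ℕ)
    (_ : lam ≠ 2)
    (chig : CuspForm.heckeAlgebra M 2 (↑S : Set ℕ) →+* ℂ)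
    (_ : ∀ (ℓ : ℕ) (hℓ : ℓ.Prime) (hℓM : ¬ ℓ ∣ M) (hℓS : ℓ ∉ (↑S : Set ℕ)),
      chig (CuspForm.heckeAlgebra.T hℓ hℓM hℓS) = ModularFormClass.qCoeff g ℓ)
    (_ : lam ∈ S) (_ : ∀ q : ℕ, q.Prime → q ∣ M → q ∈ S)
    (_ : ∃ (ℓ : ℕ) (hℓ : ℓ.Prime) (hℓM : ¬ ℓ ∣ M) (hℓS : ℓ ∉ (↑S : Set ℕ)),
      ℓ ≠ lam ∧ chig (CuspForm.heckeAlgebra.T hℓ hℓM hℓS) ≠ (ℓ : ℂ) + 1)
    (q : ℕ), q.Prime → q ≠ lam → M.factorization q = 2 →
      ∃ t : CuspForm.heckeAlgebra M 2 (↑S : Set ℕ), chig t ≠ 0 ∧ INV36Gate M S lam q t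

/-- the clean gate implies the full gate (helper2's NON-EIS + injectivity of `iota`) -/
theorem s36Gate_of_NE (hG : S36GateNE) : S36Gate := by
  intro M _ g hg lam _ S O' _ _ _ _ _ _ hlamO' hlam2 chig hchig iota hlamS hMS hres q hq hqlam hq2
  obtain ⟨ℓ, hℓ, hℓM, hℓS, hℓlam, hne⟩ :=
    Fermat.Agent.GL.NonEis.exists_prime_ne_succ lam S O' hlamO' chig iota hres
  refine hG hg lam S hlam2 chig hchig hlamS hMS ⟨ℓ, hℓ, hℓM, hℓS, hℓlam, ?_⟩ q hq hqlam hq2
  intro h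
  apply hne
  have h1 : chig.rangeRestrict (CuspForm.heckeAlgebra.T hℓ hℓM hℓS) = ((ℓ : chig.range) + 1) := by
    apply Subtype.ext
    rw [RingHom.coe_rangeRestrict, h]
    push_cast
    rfl
  rw [RingHom.comp_apply, h1, map_add, map_natCast, map_one]

/-- **The frozen statement S36 from the gate.** -/
theorem s36_of_gate (hG : S36Gate)
    {M : ℕ} [NeZero M] {g : CuspForm (CongruenceSubgroup.Gamma0 M) 2} (hg : g.IsNewform)
    (lam : ℕ) [Fact lam.Prime]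
    (S : Finset ℕ)
    (O' : Type) [CommRing O'] [IsDomain O'] [IsDiscreteValuationRing O']
    [IsAdicComplete (IsLocalRing.maximalIdeal O') O'] [Finite (IsLocalRing.ResidueField O')]
    [CharZero O'] (hlamO' : (lam : O') ∈ IsLocalRing.maximalIdeal O')
    (hlam2 : lam ≠ 2)
    (chig : CuspForm.heckeAlgebra M 2 (↑S : Set ℕ) →+* ℂ)
    (hchig : ∀ (ℓ : ℕ) (hℓ : ℓ.Prime) (hℓM : ¬ ℓ ∣ M) (hℓS : ℓ ∉ (↑S : Set ℕ)),
      chig (CuspForm.heckeAlgebra.T hℓ hℓM hℓS) = ModularFormClass.qCoeff g ℓ)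
    (iota : chig.range →+* O')
    (hlamS : lam ∈ S) (hMS : ∀ q : ℕ, q.Prime → q ∣ M → q ∈ S)
    (hres : ∀ (O'' : Type) [CommRing O''] [IsDomain O''] [IsDiscreteValuationRing O'']
      [IsAdicComplete (IsLocalRing.maximalIdeal O'') O''] [Finite (IsLocalRing.ResidueField O'')] [CharZero O'']
      [Algebra O' O''] [Module.Finite O' O''] [IsLocalHom (algebraMap O' O'')],
      Function.Injective (algebraMap O' O'') → ∀ (ρ : GaloisRepAdic O''),
      (∀ (ℓ : ℕ) (hℓ : ℓ.Prime) (hℓlam : ℓ ≠ lam) (hℓM : ¬ ℓ ∣ M) (hℓS : ℓ ∉ (↑S : Set ℕ)),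
        ∀ A : ValuationSubring (AlgebraicClosure ℚ), A.LiesOverPrime ℓ →
          ∀ σ : AlgebraicClosure ℚ ≃ₐ[ℚ] AlgebraicClosure ℚ, A.IsFrobeniusAt σ ℓ →
            LinearMap.charpoly (ρ.ρ σ) =
              X ^ 2 - C (algebraMap O' O'' ((iota.comp chig.rangeRestrict) (CuspForm.heckeAlgebra.T hℓ hℓM hℓS))) * X
                + C ((ℓ : O'')))
      → ρ.residual.IsAbsolutelyIrreducible ∧ ρ.residual.IsOdd)
    :
    ∃ (O'' : Type) (_ : CommRing O'') (_ : IsDomain O'') (_ : IsDiscreteValuationRing O'')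
      (_ : IsAdicComplete (IsLocalRing.maximalIdeal O'') O'') (_ : Finite (IsLocalRing.ResidueField O''))
      (_ : CharZero O'') (_ : Algebra O' O'') (_ : Module.Finite O' O'') (_ : IsLocalHom (algebraMap O' O'')),
      Function.Injective (algebraMap O' O'') ∧
      ∃ ρ : GaloisRepAdic O'',
        (∀ (ℓ : ℕ) (hℓ : ℓ.Prime) (hℓM : ¬ ℓ ∣ M) (hℓS : ℓ ∉ (↑S : Set ℕ)),
          ∀ A : ValuationSubring (AlgebraicClosure ℚ), A.LiesOverPrime ℓ →
            ∀ σ : AlgebraicClosure ℚ ≃ₐ[ℚ] AlgebraicClosure ℚ, A.IsFrobeniusAt σ ℓ →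
              LinearMap.charpoly (ρ.ρ σ) =
                X ^ 2 - C (algebraMap O' O'' ((iota.comp chig.rangeRestrict) (CuspForm.heckeAlgebra.T hℓ hℓM hℓS))) * X
                  + C ((ℓ : O''))) ∧
        (∀ q : ℕ, q.Prime → q ≠ lam → M.factorization q = 2 → ¬ ρ.IsUnipotentOnInertiaAt q) := by
  have hfin : Module.Finite ℤ (CuspForm.heckeAlgebra M 2 (↑S : Set ℕ)) :=
    Fermat.Agent.S22.result M 2 (↑S : Set ℕ)
  have hinj : Function.Injective iota :=
    Fermat.Agent.GK.Tate.S35Iota.injective_of_range chig iota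
  have hK : Fermat.Agent.GJ.Tate.S31Top.K18sPow :=
    Fermat.Agent.GJ.Tate.S30Final.k18sPow_of_aux Fermat.Agent.GJ.J1.K18sAllFinal.k18sAux
  obtain ⟨ρ, hρ₁, hρ₂⟩ := s36_of_gates hK lam M S hlamS hMS O' hlamO'
    (iota.comp chig.rangeRestrict) (fun q hq hqlam hq2 => by
      obtain ⟨t, ht, hGt⟩ :=
        hG hg lam S O' hlamO' hlam2 chig hchig iota hlamS hMS hres q hq hqlam hq2
      refine ⟨t, ?_, hGt⟩
      intro h0
      apply ht
      have h1 : iota (chig.rangeRestrict t) = iota 0 := by rw [map_zero]; exact h0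
      have h2 := congrArg Subtype.val (hinj h1)
      exact h2)
  refine ⟨O', inferInstance, inferInstance, inferInstance, inferInstance, inferInstance,
    inferInstance, Algebra.id O', Module.Finite.self O', ?_, ?_, ρ, ?_, hρ₂⟩
  · exact ⟨fun a ha => ha⟩
  · exact Function.injective_id
  · intro ℓ hℓ hℓM hℓS A hA σ hσ
    rw [hρ₁ ℓ hℓ hℓM hℓS A hA σ hσ]
    rfl

end Fermat.Agent.GK.S36.S36Final
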