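/-
NEXT-GATE / S36-TATE (helper64), ADAPTERS for the geometry: END FORM and FIXED-UNITS FORM of the
S36 gate (twins of helper17's `KumHecke.ss35Gate_of_end`).

* `thetaN_trans` : for `n ≤ k` the transition map `Kum_{p^k}(F_N) → Kum_{pⁿ}(F_N)` (identity on
  functions) sends `ThetaN k x` to `ThetaN n x`;
* `inv36Gate_of_end` : it suffices that for ONE place `P | q` and every `n` there is `k ≥ n` with
  `kumHeckeN t (image in level n of y) = 0` for every `I(P)`-invariant class `y ∈ Kum_{p^k}(F_N)`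
  (no lattice `Lam N` in the statement);
* `inv36Gate_of_fixedUnits` : it suffices to treat the classes of FUNCTIONS `u ∈ F_Nˣ` with
  `p^k ∣ div u` that are FIXED (coefficientwise) by `I(P)` — helper1's (c')
  `InvDescentFK.exists_invariant_kum_rep`: no cohomology is left in the contract.
-/
import Mathlib
import Fermat.Agent.GK.S36.S36Top
import Fermat.Agent.GK.Tate.KumHecke
import Fermat.Agent.GL.Coh.InvDescentFK

set_option autoImplicit false

noncomputable section

namespace Fermat.Agent.GK.S36.S36End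

open CuspForm
open Fermat.Agent.GJ Fermat.Agent.GJ.KumGroup Fermat.Agent.GJ.Kum.KumType Fermat.Agent.GJ.KumTower
open Fermat.Agent.GJ.J2.Lat Fermat.Agent.GJ.J2.LatAct
open Fermat.Agent.GK.Tate.S35Top (ThetaN)
open Fermat.Agent.GK.Tate.KumHecke Fermat.Agent.GK.S36.S36Top

/-- `ℚ̄`. -/
local notation "Qb" => AlgebraicClosure ℚ

variable (N : ℕ) [NeZero N] (S : Finset ℕ) (p : ℕ) [Fact p.Prime]

/-- one step of the tower: `Kum_{p^(n+1)} → Kum_{pⁿ}` sends `ThetaN (n+1) x` to `ThetaN n x` -/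
theorem thetaN_trans_succ (n : ℕ) (x : Lam N) :
    Additive.ofMul (KumTower.trans (pow_dvd_pow p (Nat.le_succ n))
      (Additive.toMul (ThetaN N p (n + 1) x))) = ThetaN N p n x := by
  have hp0 : p ≠ 0 := (Fact.out : p.Prime).ne_zero
  have hne : ∀ n : ℕ, NeZero (p ^ n) := fun n => ⟨pow_ne_zero n hp0⟩
  unfold ThetaN
  rw [thetaLat_trans N (p ^ (n + 1)) (pow_dvd_pow p (Nat.le_succ n))]
  exact DFunLike.congr_fun
    (Fermat.Agent.GJ.Tate.TowerGateCInst.thetaLat_congr N (p ^ n) _ _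
      (zetaPow_succ_pow_div p n hp0)) x

/-- **the tower is compatible**: for `n ≤ k` the transition map sends `ThetaN k x` to
`ThetaN n x`. -/
theorem thetaN_trans {n k : ℕ} (hnk : n ≤ k) (x : Lam N) :
    Additive.ofMul (KumTower.trans (pow_dvd_pow p hnk)
      (Additive.toMul (ThetaN N p k x))) = ThetaN N p n x := by
  induction k, hnk using Nat.le_induction with
  | base => exact congrArg Additive.ofMul (trans_refl _)
  | succ k hnk ih =>
    rw [← ih, ← thetaN_trans_succ N p k x]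
    exact congrArg Additive.ofMul
      (trans_trans (pow_dvd_pow p hnk) (pow_dvd_pow p (Nat.le_succ k)) _).symm

/-- **END FORM of the S36 gate ⟹ `INV36Gate`.** -/
theorem inv36Gate_of_end (q : ℕ) (t : ↥(heckeAlgebra N 2 (↑S : Set ℕ)))
    (h : ∃ P : ValuationSubring (AlgebraicClosure ℚ), P.LiesOverPrime q ∧
      ∀ n : ℕ, ∃ k : ℕ, ∃ hnk : n ≤ k, ∀ y : Additive (Kum Qb (FK N) (p ^ k)),
        (∀ σ ∈ P.inertiaSubgroupIn ℚ, gal N (p ^ k) σ y = y) →
          kumHeckeN N S p n t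
            (Additive.ofMul (KumTower.trans (pow_dvd_pow p hnk) (Additive.toMul y))) = 0) :
    INV36Gate N S p q t := by
  obtain ⟨P, hP, hG⟩ := h
  refine ⟨P, hP, fun n => ?_⟩
  obtain ⟨k, hnk, hk⟩ := hG n
  refine ⟨k, fun x hx => ?_⟩
  rw [← kumHeckeN_ThetaN, ← thetaN_trans N p hnk x]
  exact hk _ hx

/-- **FIXED-UNITS FORM of the S36 gate ⟹ `INV36Gate`**: only classes of functions fixed by the
inertia group have to be treated. -/
theorem inv36Gate_of_fixedUnits (q : ℕ) (t : ↥(heckeAlgebra N 2 (↑S : Set ℕ)))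
    (h : ∃ P : ValuationSubring (AlgebraicClosure ℚ), P.LiesOverPrime q ∧
      ∀ n : ℕ, ∃ k : ℕ, ∃ hnk : n ≤ k, ∀ u : pDivUnits Qb (FK N) (p ^ k),
        (∀ σ ∈ P.inertiaSubgroupIn ℚ, galUnits N σ (u : (FK N)ˣ) = (u : (FK N)ˣ)) →
          kumHeckeN N S p n t
            (Additive.ofMul (Kum.mk (pDivIncl (pow_dvd_pow p hnk) u))) = 0) :
    INV36Gate N S p q t := by
  obtain ⟨P, hP, hG⟩ := h
  refine inv36Gate_of_end N S p q t ⟨P, hP, fun n => ?_⟩
  obtain ⟨k, hnk, hk⟩ := hG n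
  refine ⟨k, hnk, fun y hy => ?_⟩
  have hp0 : p ≠ 0 := (Fact.out : p.Prime).ne_zero
  obtain ⟨u, rfl, hu⟩ := Fermat.Agent.GL.Coh.InvDescentFK.exists_invariant_kum_rep N (p ^ k)
    (pow_ne_zero k hp0) (P.inertiaSubgroupIn ℚ) y hy
  exact hk u hu

end Fermat.Agent.GK.S36.S36End
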