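/-
NEXT-GATE / S36-TATE (helper64), ADAPTER "NEW-INVARIANT FORM" of the S36 gate: the newform theory
(helper24's old-killer, K6a/K6c) is plugged in HERE, so that the geometry at `q² ∥ M` never sees
`g`, `IsNewform` or the eigencharacter beyond ONE operator `η` with `chig η ≠ 0`.

* `DiesTo M N' m y` : the class `y ∈ Kum_m(F_M)` dies under EVERY Galois-equivariant `ℤ/m`-linear
  map `Kum_m(F_M) → Kum_m(F_{N'})` (e.g. the two degeneracy norms `π_*`, `π'_*` to level `M/q`).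
* `NewInvGate M S lam q N' η` : ONE place `P | q`; for every `n` some `k ≥ n` such that for every
  class `y ∈ Kum_{lam^k}(F_M)` which is `I(P)`-invariant AND dies to level `N'`, the operator `η`
  kills the image of `y` in `Kum_{lamⁿ}(F_M)`.
* `inv36Gate_of_newInv` : `NewInvGate … η` ⟹ `INV36Gate M S lam q (η * t_old)` for ANY `t_old` dying
  to level `N'` (in the sense of helper24's `exists_oldKiller_dies`).
* `s36GateNE_of_new : S36GateNew → S36GateNE`  (so `S36GateNew → frozen S36`).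
-/
import Mathlib
import Fermat.Agent.GK.S36.S36End
import Fermat.Agent.GK.S36.S36Final
import Fermat.Agent.GK.New.KillerDies

set_option autoImplicit false

noncomputable section

namespace Fermat.Agent.GK.S36.S36New

open CuspForm
open Fermat.Agent.GJ Fermat.Agent.GJ.KumGroup Fermat.Agent.GJ.Kum.KumType Fermat.Agent.GJ.KumTower
open Fermat.Agent.GJ.J2.Lat Fermat.Agent.GJ.J2.LatAct
open Fermat.Agent.GK.Tate.S35Top (ThetaN)
open Fermat.Agent.GK.Tate.KumHecke Fermat.Agent.GK.S36.S36Top Fermat.Agent.GK.S36.S36End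
open Fermat.Agent.GK.S36.S36Final

/-- `ℚ̄`. -/
local notation "Qb" => AlgebraicClosure ℚ

/-- the class `y ∈ Kum_m(F_M)` dies under every Galois-equivariant linear map to `Kum_m(F_{N'})` -/
def DiesTo (M N' m : ℕ) [NeZero M] [NeZero N'] (y : Additive (Kum Qb (FK M) m)) : Prop :=
  ∀ f : Additive (Kum Qb (FK M) m) →ₗ[ZMod m] Additive (Kum Qb (FK N') m),
    (∀ (σ : AlgebraicClosure ℚ ≃ₐ[ℚ] AlgebraicClosure ℚ) x,
      f (gal M m σ x) = gal N' m σ (f x)) → f y = 0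

variable (M : ℕ) [NeZero M] (S : Finset ℕ) (lam : ℕ) [Fact lam.Prime]

/-- **the S36 gate in NEW-INVARIANT form** -/
def NewInvGate (q N' : ℕ) [NeZero N'] (η : ↥(heckeAlgebra M 2 (↑S : Set ℕ))) : Prop :=
  ∃ P : ValuationSubring (AlgebraicClosure ℚ), P.LiesOverPrime q ∧
    ∀ n : ℕ, ∃ k : ℕ, ∃ hnk : n ≤ k, ∀ y : Additive (Kum Qb (FK M) (lam ^ k)),
      (∀ σ ∈ P.inertiaSubgroupIn ℚ, gal M (lam ^ k) σ y = y) →
      DiesTo M N' (lam ^ k) y →
        kumHeckeN M S lam n η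
          (Additive.ofMul (KumTower.trans (pow_dvd_pow lam hnk) (Additive.toMul y))) = 0

/-- the Hecke action commutes with the transition maps of the Kummer tower -/
theorem kumHeckeN_trans {n k : ℕ} (hnk : n ≤ k) (t : ↥(heckeAlgebra M 2 (↑S : Set ℕ)))
    (y : Additive (Kum Qb (FK M) (lam ^ k))) :
    Additive.ofMul (KumTower.trans (pow_dvd_pow lam hnk)
        (Additive.toMul (kumHeckeN M S lam k t y)))
      = kumHeckeN M S lam n t
          (Additive.ofMul (KumTower.trans (pow_dvd_pow lam hnk) (Additive.toMul y))) := by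
  have hp0 : lam ≠ 0 := (Fact.out : lam.Prime).ne_zero
  haveI : NeZero (lam ^ k) := ⟨pow_ne_zero k hp0⟩
  obtain ⟨x, rfl⟩ : ∃ x : Lam M, ThetaN M lam k x = y := thetaLat_surjective M _ _ y
  rw [kumHeckeN_ThetaN, thetaN_trans M lam hnk, thetaN_trans M lam hnk, kumHeckeN_ThetaN]

/-- **NEW-INVARIANT FORM ⟹ `INV36Gate`**, for any operator `t` dying to level `N'`. -/
theorem inv36Gate_of_newInv (q N' : ℕ) [NeZero N'] (η t : ↥(heckeAlgebra M 2 (↑S : Set ℕ)))
    (ht : ∀ (n : ℕ) (y : Additive (Kum Qb (FK M) (lam ^ n))),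
      DiesTo M N' (lam ^ n) (kumHeckeN M S lam n t y))
    (h : NewInvGate M S lam q N' η) : INV36Gate M S lam q (η * t) := by
  obtain ⟨P, hP, hG⟩ := h
  refine inv36Gate_of_end M S lam q (η * t) ⟨P, hP, fun n => ?_⟩
  obtain ⟨k, hnk, hk⟩ := hG n
  refine ⟨k, hnk, fun y hy => ?_⟩
  have hp0 : lam ≠ 0 := (Fact.out : lam.Prime).ne_zero
  haveI : NeZero (lam ^ k) := ⟨pow_ne_zero k hp0⟩
  have h1 := hk (kumHeckeN M S lam k t y) (fun σ hσ => by
    have := kumHecke_gal_apply M (↑S : Set ℕ) (lam ^ k)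
      (isPrimitiveRoot_zetaPow lam k hp0) t σ y
    exact (this.symm.trans (congrArg _ (hy σ hσ)))) (ht k y)
  rw [kumHeckeN_trans M S lam hnk t y] at h1
  rw [map_mul, Module.End.mul_apply]
  exact h1

/-- **The S36 gate, NEW-INVARIANT form** (the contract for the geometry at `q² ∥ M`): no newform,
no eigencharacter beyond `chig η ≠ 0`. -/
def S36GateNew : Prop :=
  ∀ {M : ℕ} [NeZero M] {g : CuspForm (CongruenceSubgroup.Gamma0 M) 2} (_ : g.IsNewform)
    (lam : ℕ) [Fact lam.Prime] (S : Finset ℕ)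
    (_ : lam ≠ 2)
    (chig : CuspForm.heckeAlgebra M 2 (↑S : Set ℕ) →+* ℂ)
    (_ : ∀ (ℓ : ℕ) (hℓ : ℓ.Prime) (hℓM : ¬ ℓ ∣ M) (hℓS : ℓ ∉ (↑S : Set ℕ)),
      chig (CuspForm.heckeAlgebra.T hℓ hℓM hℓS) = ModularFormClass.qCoeff g ℓ)
    (_ : lam ∈ S) (_ : ∀ q : ℕ, q.Prime → q ∣ M → q ∈ S)
    (_ : ∃ (ℓ : ℕ) (hℓ : ℓ.Prime) (hℓM : ¬ ℓ ∣ M) (hℓS : ℓ ∉ (↑S : Set ℕ)),
      ℓ ≠ lam ∧ chig (CuspForm.heckeAlgebra.T hℓ hℓM hℓS) ≠ (ℓ : ℂ) + 1)
    (q : ℕ), q.Prime → q ≠ lam → M.factorization q = 2 →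
      ∃ (N' : ℕ) (_ : NeZero N'), N' ∣ M ∧ N' ≠ M ∧
        ∃ η : CuspForm.heckeAlgebra M 2 (↑S : Set ℕ), chig η ≠ 0 ∧ NewInvGate M S lam q N' η

/-- the NEW-INVARIANT gate implies the clean gate `S36GateNE` (helper24's old-killer plugged in) -/
theorem s36GateNE_of_new (hG : S36GateNew) : S36GateNE := by
  intro M _ g hg lam _ S hlam2 chig hchig hlamS hMS hNE q hq hqlam hq2
  obtain ⟨N', hN', hN'M, hne, η, hη, hgate⟩ :=
    hG hg lam S hlam2 chig hchig hlamS hMS hNE q hq hqlam hq2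
  obtain ⟨t, ht, hdies⟩ :=
    Fermat.Agent.GK.New.exists_oldKiller_dies hN'M hne hg lam S chig hchig hlamS hMS
  refine ⟨η * t, ?_, inv36Gate_of_newInv M S lam q N' η t (fun n y f hf => hdies n f hf y) hgate⟩
  rw [map_mul]
  exact mul_ne_zero hη ht

/-- **The frozen statement S36 from the NEW-INVARIANT gate.** -/
theorem s36Gate_of_new (hG : S36GateNew) : S36Gate :=
  s36Gate_of_NE (s36GateNE_of_new hG)

end Fermat.Agent.GK.S36.S36New
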