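/-
NEXT-GATE / S36-TATE (helper64), ADAPTER "OLD-IMAGE FORM": helper24's old-killer also KILLS THE IMAGE
of every Galois-equivariant map from the lower level, so the geometry may conclude with
"`η · y` lies in the subgroup generated by the classes coming from level `N'`" (report 204 (h):
`K(N)^I ⊗ ℚ` = old toric part) instead of "`η · y = 0`".

* `kumHecke_aeval_kills_image` : `P(T^{N'}) = 0` ⟹ `P(T^M) (f' z) = 0` for every Galois-equivariant
  linear `f' : Kum_m(F_{N'}) → Kum_m(F_M)` (e.g. the degeneracy pull-backs `π^*`, `π'^*`);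
* `exists_oldKiller_both` : ONE operator `t`, `chig t ≠ 0`, dying under all equivariant maps
  `M → N'` and killing the images of all equivariant maps `N' → M`, on every `Kum_{lamⁿ}`;
* `OldImage M N' m` : the subgroup of `Kum_m(F_M)` generated by those images;
* `NewOldGate` / `inv36Gate_of_newOld` / `S36GateNewOld` / `s36GateNE_of_newOld`.
-/
import Mathlib
import Fermat.Agent.GK.S36.S36New

set_option autoImplicit false

noncomputable section

namespace Fermat.Agent.GK.S36.S36Old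

open CuspForm ModularFormClass CongruenceSubgroup
open Fermat.Agent.GJ Fermat.Agent.GJ.KumGroup Fermat.Agent.GJ.Kum.KumType Fermat.Agent.GJ.KumTower
open Fermat.Agent.GJ.J2.Lat Fermat.Agent.GJ.J2.LatAct
open Fermat.Agent.GK.Tate.S35Top (ThetaN)
open Fermat.Agent.GK.Tate.KumHecke Fermat.Agent.GK.S36.S36Top Fermat.Agent.GK.S36.S36End
open Fermat.Agent.GK.S36.S36Final Fermat.Agent.GK.S36.S36New
open Fermat.Agent.GK.New Fermat.Agent.GK.UQ

/-- `ℚ̄`. -/
local notation "Qb" => AlgebraicClosure ℚ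
local notation "GQ'" => (AlgebraicClosure ℚ ≃ₐ[ℚ] AlgebraicClosure ℚ)

section Kills

variable {M N' : ℕ} [NeZero M] [NeZero N'] (S : Finset ℕ) (m : ℕ) [NeZero m] {ζ : ℂ}

/-- **P(T^{N'}) = 0 ⟹ P(T^M) kills the image of every Galois-equivariant map from level `N'`.** -/
theorem kumHecke_aeval_kills_image (hζ : IsPrimitiveRoot ζ m)
    (hMS : ∀ q : ℕ, q.Prime → q ∣ M → q ∈ S) (hN'S : ∀ q : ℕ, q.Prime → q ∣ N' → q ∈ S)
    (hmS : ∀ q : ℕ, q.Prime → q ∣ m → q ∈ S)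
    (f : Additive (Kum Qb (FK N') m) →ₗ[ZMod m] Additive (Kum Qb (FK M) m))
    (hf : ∀ (σ : GQ') x, f (gal N' m σ x) = gal M m σ (f x))
    (P : MvPolynomial (PrimeIdx S) ℤ)
    (hP : MvPolynomial.aeval (TfamH (N' := N') (S := S) hN'S) P = 0)
    (z : Additive (Kum Qb (FK N') m)) :
    kumHecke M (↑S : Set ℕ) m hζ (MvPolynomial.aeval (TfamH hMS) P) (f z) = 0 := by
  have hm : 0 < m := Nat.pos_of_ne_zero (NeZero.ne m)
  let toAdd : ∀ (L : ℕ) [NeZero L],
      Module.End (ZMod m) (Additive (Kum Qb (FK L) m)) →+*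
        AddMonoid.End (Additive (Kum Qb (FK L) m)) := fun L _ =>
    { toFun := fun E => E.toAddMonoidHom
      map_one' := rfl
      map_mul' := fun _ _ => rfl
      map_zero' := rfl
      map_add' := fun _ _ => rfl }
  have key := aeval_intertwine'
    ((toAdd N').comp (kumHecke N' (↑S : Set ℕ) m hζ))
    ((toAdd M).comp (kumHecke M (↑S : Set ℕ) m hζ))
    f.toAddMonoidHom (TfamH (N' := N') (S := S) hN'S) (TfamH hMS) ?_ P z
  · have h0 : f (kumHecke N' (↑S : Set ℕ) m hζ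
        (MvPolynomial.aeval (TfamH (N' := N') (S := S) hN'S) P) z) = 0 := by
      rw [hP, map_zero, LinearMap.zero_apply, map_zero]
    exact (key.symm.trans h0)
  · intro i y
    have hnd : ∀ {L : ℕ}, (∀ q : ℕ, q.Prime → q ∣ L → q ∈ S) → ¬ i.1 ∣ L * m := by
      intro L hLS h
      rcases (Nat.Prime.dvd_mul i.2.1).mp h with h | h
      · exact i.2.2 (hLS _ i.2.1 h)
      · exact i.2.2 (hmS _ i.2.1 h)
    show f (kumHecke N' (↑S : Set ℕ) m hζ (TfamH hN'S i) y)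
      = kumHecke M (↑S : Set ℕ) m hζ (TfamH hMS i) (f y)
    rw [kumHecke_TfamH S m hζ hMS i, kumHecke_TfamH S m hζ hN'S i]
    exact TEnd_comp_of_gal_comm N' M m hm i.2.1 (hnd hN'S) (hnd hMS) f hf y

end Kills

/-- the subgroup of `Kum_m(F_M)` generated by the images of all Galois-equivariant linear maps
`Kum_m(F_{N'}) → Kum_m(F_M)` -/
def OldImage (M N' m : ℕ) [NeZero M] [NeZero N'] : AddSubgroup (Additive (Kum Qb (FK M) m)) :=
  AddSubgroup.closure {y | ∃ f : Additive (Kum Qb (FK N') m) →ₗ[ZMod m] Additive (Kum Qb (FK M) m),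
    (∀ (σ : GQ') x, f (gal N' m σ x) = gal M m σ (f x)) ∧ ∃ z, f z = y}

/-- **old-killer, both directions**: `chig t ≠ 0`, `t` dies under every equivariant map to level
`N'` and kills `OldImage M N' (lamⁿ)`. -/
theorem exists_oldKiller_both {M N' : ℕ} [NeZero M] [NeZero N'] (hN'M : N' ∣ M) (hne : N' ≠ M)
    {g : CuspForm (Gamma0 M) 2} (hg : g.IsNewform) (lam : ℕ) [Fact lam.Prime] (S : Finset ℕ)
    (chig : heckeAlgebra M 2 (↑S : Set ℕ) →+* ℂ)
    (hchig : ∀ (ℓ : ℕ) (hℓ : ℓ.Prime) (hℓM : ¬ ℓ ∣ M) (hℓS : ℓ ∉ (↑S : Set ℕ)),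
      chig (heckeAlgebra.T hℓ hℓM hℓS) = qCoeff g ℓ)
    (hlamS : lam ∈ S) (hMS : ∀ q : ℕ, q.Prime → q ∣ M → q ∈ S) :
    ∃ t : heckeAlgebra M 2 (↑S : Set ℕ), chig t ≠ 0 ∧
      (∀ (n : ℕ) (y : Additive (Kum Qb (FK M) (lam ^ n))),
        DiesTo M N' (lam ^ n) (kumHeckeN M S lam n t y)) ∧
      (∀ (n : ℕ), ∀ y ∈ OldImage M N' (lam ^ n), kumHeckeN M S lam n t y = 0) := by
  obtain ⟨P, hP0, hP1⟩ := exists_oldKiller_chi hN'M hne hg S hMS chig hchig
  have hlam : lam.Prime := Fact.out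
  have hlamS' : ∀ (n : ℕ) (q : ℕ), q.Prime → q ∣ lam ^ n → q ∈ S := by
    intro n q hq h
    have : q = lam := (Nat.prime_dvd_prime_iff_eq hq hlam).mp (hq.dvd_of_dvd_pow h)
    exact this ▸ hlamS
  refine ⟨MvPolynomial.aeval (TfamH hMS) P, hP1, fun n y f hf => ?_, fun n y hy => ?_⟩
  · have : NeZero (lam ^ n) := ⟨pow_ne_zero n hlam.ne_zero⟩
    exact kumHecke_aeval_dies S (lam ^ n) _ hMS (fun q hq h => hMS q hq (h.trans hN'M))
      (hlamS' n) f hf P hP0 y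
  · have : NeZero (lam ^ n) := ⟨pow_ne_zero n hlam.ne_zero⟩
    refine AddSubgroup.closure_induction (p := fun y _ =>
      kumHeckeN M S lam n (MvPolynomial.aeval (TfamH hMS) P) y = 0) ?_ ?_ ?_ ?_ hy
    · rintro _ ⟨f, hf, z, rfl⟩
      exact kumHecke_aeval_kills_image S (lam ^ n) _ hMS (fun q hq h => hMS q hq (h.trans hN'M))
        (hlamS' n) f hf P hP0 z
    · exact map_zero _
    · intro a b _ _ ha hb
      rw [map_add, ha, hb, add_zero]
    · intro a _ ha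
      rw [map_neg, ha, neg_zero]

variable (M : ℕ) [NeZero M] (S : Finset ℕ) (lam : ℕ) [Fact lam.Prime]

/-- **the S36 gate in NEW ⟹ OLD form**: for `I(P)`-invariant classes `y` of level `k` dying to level
`N'`, `η · (y mod lamⁿ)` comes from level `N'`. -/
def NewOldGate (q N' : ℕ) [NeZero N'] (η : ↥(heckeAlgebra M 2 (↑S : Set ℕ))) : Prop :=
  ∃ P : ValuationSubring (AlgebraicClosure ℚ), P.LiesOverPrime q ∧
    ∀ n : ℕ, ∃ k : ℕ, ∃ hnk : n ≤ k, ∀ y : Additive (Kum Qb (FK M) (lam ^ k)),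
      (∀ σ ∈ P.inertiaSubgroupIn ℚ, gal M (lam ^ k) σ y = y) →
      DiesTo M N' (lam ^ k) y →
        kumHeckeN M S lam n η
          (Additive.ofMul (KumTower.trans (pow_dvd_pow lam hnk) (Additive.toMul y)))
            ∈ OldImage M N' (lam ^ n)

/-- **NEW ⟹ OLD FORM ⟹ `INV36Gate`**, for any operator `t` dying to level `N'` and killing the
old image. -/
theorem inv36Gate_of_newOld (q N' : ℕ) [NeZero N'] (η t : ↥(heckeAlgebra M 2 (↑S : Set ℕ)))
    (ht : ∀ (n : ℕ) (y : Additive (Kum Qb (FK M) (lam ^ n))),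
      DiesTo M N' (lam ^ n) (kumHeckeN M S lam n t y))
    (ht' : ∀ (n : ℕ), ∀ y ∈ OldImage M N' (lam ^ n), kumHeckeN M S lam n t y = 0)
    (h : NewOldGate M S lam q N' η) : INV36Gate M S lam q (t * η * t) := by
  obtain ⟨P, hP, hG⟩ := h
  have h' : NewInvGate M S lam q N' (t * η) := by
    refine ⟨P, hP, fun n => ?_⟩
    obtain ⟨k, hnk, hk⟩ := hG n
    refine ⟨k, hnk, fun y hy hd => ?_⟩
    rw [map_mul, Module.End.mul_apply]
    exact ht' n _ (hk y hy hd)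
  exact inv36Gate_of_newInv M S lam q N' (t * η) t ht h'

/-- **The S36 gate, NEW ⟹ OLD form.** -/
def S36GateNewOld : Prop :=
  ∀ {M : ℕ} [NeZero M] {g : CuspForm (CongruenceSubgroup.Gamma0 M) 2} (_ : g.IsNewform)
    (lam : ℕ) [Fact lam.Prime] (S : Finset ℕ)
    (_ : lam ≠ 2)
    (chig : CuspForm.heckeAlgebra M 2 (↑S : Set ℕ) →+* ℂ)
    (_ : ∀ (ℓ : ℕ) (hℓ : ℓ.Prime) (hℓM : ¬ ℓ ∣ M) (hℓS : ℓ ∉ (↑S : Set ℕ)),
      chig (CuspForm.heckeAlgebra.T hℓ hℓM hℓS) = ModularFormClass.qCoeff g ℓ)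
    (_ : lam ∈ S) (_ : ∀ q : ℕ, q.Prime → q ∣ M → q ∈ S)
    (_ : ∃ (ℓ : ℕ) (hℓ : ℓ.Prime) (hℓM : ¬ ℓ ∣ M) (hℓS : ℓ ∉ (↑S : Set ℕ)),
      ℓ ≠ lam ∧ chig (CuspForm.heckeAlgebra.T hℓ hℓM hℓS) ≠ (ℓ : ℂ) + 1)
    (q : ℕ), q.Prime → q ≠ lam → M.factorization q = 2 →
      ∃ (N' : ℕ) (_ : NeZero N'), N' ∣ M ∧ N' ≠ M ∧
        ∃ η : CuspForm.heckeAlgebra M 2 (↑S : Set ℕ), chig η ≠ 0 ∧ NewOldGate M S lam q N' η

/-- the NEW ⟹ OLD gate implies the clean gate `S36GateNE` -/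
theorem s36GateNE_of_newOld (hG : S36GateNewOld) : S36GateNE := by
  intro M _ g hg lam _ S hlam2 chig hchig hlamS hMS hNE q hq hqlam hq2
  obtain ⟨N', hN', hN'M, hne, η, hη, hgate⟩ :=
    hG hg lam S hlam2 chig hchig hlamS hMS hNE q hq hqlam hq2
  obtain ⟨t, ht, hdies, hkills⟩ :=
    exists_oldKiller_both hN'M hne hg lam S chig hchig hlamS hMS
  refine ⟨t * η * t, ?_, inv36Gate_of_newOld M S lam q N' η t hdies hkills hgate⟩
  rw [map_mul, map_mul]
  exact mul_ne_zero (mul_ne_zero ht hη) ht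

end Fermat.Agent.GK.S36.S36Old
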